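import Mathlib
import Fermat.Prelude.Def_ModularCurve_ReductionModL

/-!
# S18, package [E], leaf (LIFT) (helper12)

`A` is a valuation subring of a field `L ⊇ ℚ`, `π : A →+* k` a surjective ring homomorphism onto a
field whose non-units are exactly the kernel (e.g. the residue map).  An *integral* element is a
Laurent series `y : LaurentSeries A` whose image in `LaurentSeries L` lies in the function field
`F_L = laurentBaseChange L (modularFunctionFieldFull N)`.

* `h12_exists_J` : for every `e : ℤ` there is an integral `J` with `J = q ^ e + higher terms`;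
* `h12_lift_unit` : an integral `b` with nonzero reduction can be replaced by an integral `b'`
  with the same reduction which is a unit of `LaurentSeries A` with integral inverse;
* `h12_lift` : every element of the characteristic `ℓ` function field
  `modularFunctionFieldFullC k N` is the reduction of an integral element.
-/

set_option autoImplicit false
set_option linter.unusedSectionVars false

noncomputable section

open HahnSeries IntermediateField AlgebraicCurve ModularCurve

namespace Fermat.Agent.S18x.E.H12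

section Series

variable {R : Type*} [CommRing R]

/-- `(q ^ a * p) ^ n = q ^ (n a) * p ^ n` for a power series `p`. -/
theorem h12_single_mul_pow (a : ℤ) (p : PowerSeries R) (n : ℕ) :
    (HahnSeries.single a (1 : R) * HahnSeries.ofPowerSeries ℤ R p) ^ n =
      HahnSeries.single (n • a) (1 : R) * HahnSeries.ofPowerSeries ℤ R (p ^ n) := by
  rw [mul_pow, HahnSeries.single_pow, one_pow, ← map_pow]

theorem h12_coeff_pow_self (a : ℤ) (p : PowerSeries R) (hp : PowerSeries.constantCoeff p = 1)
    (n : ℕ) :
    ((HahnSeries.single a (1 : R) * HahnSeries.ofPowerSeries ℤ R p) ^ n).coeff (n • a) = 1 := by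
  rw [h12_single_mul_pow, HahnSeries.coeff_single_mul, one_mul, sub_self,
    show (0 : ℤ) = ((0 : ℕ) : ℤ) from rfl, HahnSeries.ofPowerSeries_apply_coeff,
    PowerSeries.coeff_zero_eq_constantCoeff, map_pow, hp, one_pow]

theorem h12_coeff_pow_of_lt (a : ℤ) (p : PowerSeries R) (n : ℕ) {m : ℤ} (hm : m < n • a) :
    ((HahnSeries.single a (1 : R) * HahnSeries.ofPowerSeries ℤ R p) ^ n).coeff m = 0 := by
  rw [h12_single_mul_pow, HahnSeries.coeff_single_mul, one_mul]
  exact ofPowerSeries_coeff_of_neg _ (by omega)

end Series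

section Good

variable {L : Type*} [Field L] [Algebra ℚ L] (A : ValuationSubring L) (N : ℕ)

/-- `y : LaurentSeries A` is *integral*: its image in `LaurentSeries L` lies in the function
field `F_L`. -/
def h12_Good (y : LaurentSeries A) : Prop :=
  coeffMap A.subtype y ∈ laurentBaseChange L (modularFunctionFieldFull N)

variable {A N}

theorem h12_good_zero : h12_Good A N 0 := by
  unfold h12_Good; rw [map_zero]; exact zero_mem _

theorem h12_good_one : h12_Good A N 1 := by
  unfold h12_Good; rw [map_one]; exact one_mem _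

theorem h12_good_add {x y : LaurentSeries A} (hx : h12_Good A N x) (hy : h12_Good A N y) :
    h12_Good A N (x + y) := by
  unfold h12_Good at *; rw [map_add]; exact add_mem hx hy

theorem h12_good_neg {x : LaurentSeries A} (hx : h12_Good A N x) : h12_Good A N (-x) := by
  unfold h12_Good at *; rw [map_neg]; exact neg_mem hx

theorem h12_good_sub {x y : LaurentSeries A} (hx : h12_Good A N x) (hy : h12_Good A N y) :
    h12_Good A N (x - y) := by
  unfold h12_Good at *; rw [map_sub]; exact sub_mem hx hy

theorem h12_good_mul {x y : LaurentSeries A} (hx : h12_Good A N x) (hy : h12_Good A N y) :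
    h12_Good A N (x * y) := by
  unfold h12_Good at *; rw [map_mul]; exact mul_mem hx hy

theorem h12_good_pow {x : LaurentSeries A} (hx : h12_Good A N x) (n : ℕ) :
    h12_Good A N (x ^ n) := by
  unfold h12_Good at *; rw [map_pow]; exact pow_mem hx n

theorem h12_good_single_zero (c : A) : h12_Good A N (HahnSeries.single (0 : ℤ) c) := by
  unfold h12_Good
  rw [coeffMap_single]
  have h := (laurentBaseChange L (modularFunctionFieldFull N)).algebraMap_mem (c : L)
  rwa [algebraMap_laurentSeries_eq_single] at h

theorem h12_smul_eq (c : A) (x : LaurentSeries A) :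
    c • x = HahnSeries.single (0 : ℤ) c * x := by
  ext e
  rw [HahnSeries.coeff_smul, HahnSeries.coeff_single_mul, sub_zero, smul_eq_mul]

theorem h12_good_smul (c : A) {x : LaurentSeries A} (hx : h12_Good A N x) :
    h12_Good A N (c • x) := by
  rw [h12_smul_eq]
  exact h12_good_mul (h12_good_single_zero c) hx

/-- If `x y = 1` and `x` is integral, so is `y`. -/
theorem h12_good_of_mul_eq_one {x y : LaurentSeries A} (hx : h12_Good A N x) (hxy : x * y = 1) :
    h12_Good A N y := by
  unfold h12_Good at *
  have h := congrArg (coeffMap A.subtype) hxy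
  rw [map_mul, map_one] at h
  have hy : coeffMap A.subtype y = (coeffMap A.subtype x)⁻¹ :=
    eq_inv_of_mul_eq_one_right h
  rw [hy]
  exact inv_mem hx

theorem h12_good_jqN {d : ℕ} [NeZero d] (hd : d ∣ N) : h12_Good A N (jqNModC A d) := by
  unfold h12_Good
  rw [coeffMap_jqNModC, ← coeffMap_jqNModC (algebraMap ℚ L) d, jqNModC_rat]
  exact coeffEmb_mem_laurentBaseChange L (jqd_mem_full N hd)

theorem h12_good_jq : h12_Good A N (jqModC A) := by
  have h := h12_good_jqN (A := A) (N := N) (one_dvd N)
  rwa [jqNModC_one] at h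

end Good

section JPowers

variable {L : Type*} [Field L] [Algebra ℚ L] (A : ValuationSubring L) (N : ℕ)

/-- The inverse of `j` as a Laurent series with coefficients in `A`. -/
def h12_jInv : LaurentSeries A :=
  HahnSeries.single (1 : ℤ) 1 *
    HahnSeries.ofPowerSeries ℤ A ((jNum.invOfUnit 1).map (Int.castRingHom A))

theorem h12_jNum_mul_inv : jNum * jNum.invOfUnit 1 = 1 :=
  PowerSeries.mul_invOfUnit _ _ (by rw [constantCoeff_jNum]; rfl)

theorem h12_constantCoeff_jNum_inv : PowerSeries.constantCoeff (jNum.invOfUnit 1) = 1 := by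
  have h := congrArg (PowerSeries.constantCoeff (R := ℤ)) h12_jNum_mul_inv
  rwa [map_mul, constantCoeff_jNum, one_mul, map_one] at h

theorem h12_jq_mul_jInv : jqModC A * h12_jInv A = 1 := by
  unfold jqModC h12_jInv
  rw [mul_mul_mul_comm, HahnSeries.single_mul_single, ← map_mul, ← map_mul, h12_jNum_mul_inv,
    map_one, map_one, mul_one]
  simp

variable {A N}

theorem h12_good_jInv : h12_Good A N (h12_jInv A) :=
  h12_good_of_mul_eq_one (h12_good_jq (A := A) (N := N)) (h12_jq_mul_jInv A)

/-- For every exponent `e` there is an integral series `q ^ e + higher terms`. -/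
theorem h12_exists_J (e : ℤ) :
    ∃ J : LaurentSeries A, h12_Good A N J ∧ J.coeff e = 1 ∧ ∀ e' : ℤ, e' < e → J.coeff e' = 0 := by
  rcases le_or_gt 0 e with he | he
  · obtain ⟨n, rfl⟩ := Int.eq_ofNat_of_zero_le he
    refine ⟨h12_jInv A ^ n, h12_good_pow h12_good_jInv n, ?_, ?_⟩
    · have h := h12_coeff_pow_self (R := A) 1
        ((jNum.invOfUnit 1).map (Int.castRingHom A)) ?_ n
      · simpa [h12_jInv] using h
      · rw [← PowerSeries.coeff_zero_eq_constantCoeff, PowerSeries.coeff_map,
          PowerSeries.coeff_zero_eq_constantCoeff, h12_constantCoeff_jNum_inv, map_one]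
    · intro e' he'
      have h := h12_coeff_pow_of_lt (R := A) 1
        ((jNum.invOfUnit 1).map (Int.castRingHom A)) n (m := e') (by simpa using he')
      simpa [h12_jInv] using h
  · obtain ⟨n, hn⟩ := Int.eq_ofNat_of_zero_le (by omega : 0 ≤ -e)
    have he_eq : e = -(n : ℤ) := by omega
    subst he_eq
    refine ⟨jqModC A ^ n, h12_good_pow h12_good_jq n, ?_, ?_⟩
    · exact coeff_jqModC_pow_self A n
    · intro e' he'
      exact coeff_jqModC_pow_of_lt A he'

end JPowers

section Lift

variable {L : Type*} [Field L] [Algebra ℚ L] {A : ValuationSubring L}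
variable {k : Type*} [Field k] (π : A →+* k) {N : ℕ}

theorem h12_coeffMap_smul (c : A) (x : LaurentSeries A) :
    coeffMap π (c • x) = π c • coeffMap π x := by
  ext e
  rw [coeffMap_coeff, HahnSeries.coeff_smul, HahnSeries.coeff_smul, coeffMap_coeff, smul_eq_mul,
    smul_eq_mul, map_mul]

/-- Killing the finitely many coefficients below `e₀` (all in the kernel of `π`) by subtracting
multiples of powers of `j`. -/
theorem h12_kill (n : ℕ) : ∀ (e₀ : ℤ) (b : LaurentSeries A), h12_Good A N b →
    (∀ e : ℤ, e < e₀ → π (b.coeff e) = 0) → (∀ e : ℤ, e < e₀ - (n : ℤ) → b.coeff e = 0) →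
    ∃ b' : LaurentSeries A, h12_Good A N b' ∧ coeffMap π b' = coeffMap π b ∧
      ∀ e : ℤ, e < e₀ → b'.coeff e = 0 := by
  induction n with
  | zero =>
    intro e₀ b hb _ h0
    exact ⟨b, hb, rfl, fun e he => h0 e (by simpa using he)⟩
  | succ n ih =>
    intro e₀ b hb hπ h0
    obtain ⟨J, hJ, hJ1, hJ0⟩ := h12_exists_J (A := A) (N := N) (e₀ - ((n : ℤ) + 1))
    have hπc : π (b.coeff (e₀ - ((n : ℤ) + 1))) = 0 := hπ _ (by omega)
    have h1 : ∀ e : ℤ, e < e₀ → π ((b - b.coeff (e₀ - ((n : ℤ) + 1)) • J).coeff e) = 0 := by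
      intro e he
      rw [HahnSeries.coeff_sub, HahnSeries.coeff_smul, map_sub, smul_eq_mul, map_mul, hπc,
        zero_mul, sub_zero]
      exact hπ e he
    have h2 : ∀ e : ℤ, e < e₀ - (n : ℤ) →
        (b - b.coeff (e₀ - ((n : ℤ) + 1)) • J).coeff e = 0 := by
      intro e he
      rw [HahnSeries.coeff_sub, HahnSeries.coeff_smul, smul_eq_mul]
      rcases lt_or_eq_of_le (show e ≤ e₀ - ((n : ℤ) + 1) by omega) with h | h
      · rw [h0 e (by push_cast; omega), hJ0 e h, mul_zero, sub_zero]
      · rw [h, hJ1, mul_one, sub_self]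
    obtain ⟨b', hb', hred, hb'0⟩ :=
      ih e₀ (b - b.coeff (e₀ - ((n : ℤ) + 1)) • J) (h12_good_sub hb (h12_good_smul _ hJ)) h1 h2
    refine ⟨b', hb', ?_, hb'0⟩
    rw [hred, map_sub, h12_coeffMap_smul, hπc, zero_smul, sub_zero]

/-- **(LIFT b)** unit normalisation: an integral `b` with nonzero reduction can be replaced by an
integral unit `b'` with the same reduction and integral inverse. -/
theorem h12_lift_unit (hunit : ∀ a : A, π a ≠ 0 → IsUnit a) (b : LaurentSeries A)
    (hb : h12_Good A N b) (hne : coeffMap π b ≠ 0) :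
    ∃ b' b'' : LaurentSeries A, h12_Good A N b' ∧ h12_Good A N b'' ∧
      coeffMap π b' = coeffMap π b ∧ b' * b'' = 1 := by
  set e₀ : ℤ := (coeffMap π b).order with he₀
  have hπ : ∀ e : ℤ, e < e₀ → π (b.coeff e) = 0 := by
    intro e he
    rw [← coeffMap_coeff]
    exact HahnSeries.coeff_eq_zero_of_lt_order he
  have h0 : ∀ e : ℤ, e < e₀ - ((e₀ - b.order).toNat : ℤ) → b.coeff e = 0 := by
    intro e he
    refine HahnSeries.coeff_eq_zero_of_lt_order ?_
    have := Int.self_le_toNat (e₀ - b.order)
    omega
  obtain ⟨b', hb', hred, hb'0⟩ := h12_kill π _ e₀ b hb hπ h0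
  have hlead : π (b'.coeff e₀) ≠ 0 := by
    rw [← coeffMap_coeff, hred]
    exact fun h => hne (HahnSeries.coeff_order_eq_zero.mp h)
  have hb'ne : b' ≠ 0 := by
    rintro rfl
    exact hlead (by simp)
  have hord : b'.order = e₀ := by
    refine le_antisymm (HahnSeries.order_le_of_coeff_ne_zero fun h => hlead (by rw [h, map_zero]))
      ?_
    by_contra hlt
    exact hb'ne (HahnSeries.coeff_order_eq_zero.mp (hb'0 _ (not_le.mp hlt)))
  have hu : IsUnit b' := by
    rw [HahnSeries.isUnit_iff, HahnSeries.leadingCoeff_eq, hord]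
    exact hunit _ hlead
  obtain ⟨u, rfl⟩ := hu
  exact ⟨u, ((u⁻¹ : (LaurentSeries A)ˣ) : LaurentSeries A), hb',
    h12_good_of_mul_eq_one hb' (Units.mul_inv u), hred, Units.mul_inv u⟩

variable (A N) in
/-- The reductions of the integral elements form a subfield of `k((q))`. -/
def h12_liftField (hsurj : Function.Surjective π) (hunit : ∀ a : A, π a ≠ 0 → IsUnit a) :
    IntermediateField k (LaurentSeries k) :=
  Subfield.toIntermediateField
    { carrier := {x | ∃ y : LaurentSeries A, h12_Good A N y ∧ coeffMap π y = x}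
      mul_mem' := by
        rintro _ _ ⟨x, hx, rfl⟩ ⟨y, hy, rfl⟩
        exact ⟨x * y, h12_good_mul hx hy, map_mul _ _ _⟩
      one_mem' := ⟨1, h12_good_one, map_one _⟩
      add_mem' := by
        rintro _ _ ⟨x, hx, rfl⟩ ⟨y, hy, rfl⟩
        exact ⟨x + y, h12_good_add hx hy, map_add _ _ _⟩
      zero_mem' := ⟨0, h12_good_zero, map_zero _⟩
      neg_mem' := by
        rintro _ ⟨x, hx, rfl⟩
        exact ⟨-x, h12_good_neg hx, map_neg _ _⟩
      inv_mem' := by
        rintro _ ⟨x, hx, rfl⟩
        by_cases h : coeffMap π x = 0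
        · exact ⟨0, h12_good_zero, by rw [h, inv_zero, map_zero]⟩
        · obtain ⟨b', b'', _, hb'', hred, hmul⟩ := h12_lift_unit π hunit x hx h
          refine ⟨b'', hb'', ?_⟩
          have h1 := congrArg (coeffMap π) hmul
          rw [map_mul, map_one, hred] at h1
          exact eq_inv_of_mul_eq_one_right h1 }
    (by
      intro c
      obtain ⟨a, rfl⟩ := hsurj c
      exact ⟨HahnSeries.single (0 : ℤ) a, h12_good_single_zero a, by
        rw [coeffMap_single, algebraMap_laurentSeries_eq_single]⟩)

/-- **(LIFT a)** every element of the characteristic `ℓ` function field is the reduction of an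
integral element. -/
theorem h12_lift [NeZero N] (hsurj : Function.Surjective π)
    (hunit : ∀ a : A, π a ≠ 0 → IsUnit a) (g : LaurentSeries k)
    (hg : g ∈ modularFunctionFieldFullC k N) :
    ∃ y : LaurentSeries A, h12_Good A N y ∧ coeffMap π y = g := by
  have hle : modularFunctionFieldFullC k N ≤ h12_liftField A π N hsurj hunit := by
    rw [modularFunctionFieldFullC, IntermediateField.adjoin_le_iff]
    rintro x ⟨d, hne, hd, rfl⟩
    have := hne
    exact ⟨jqNModC A d, h12_good_jqN hd, coeffMap_jqNModC π d⟩
  exact hle hg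

end Lift

end Fermat.Agent.S18x.E.H12
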