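import Mathlib

/-!
# S18, package [E], leaf (CONST) (helper29): `k` is algebraically closed in `k((q))`

For every field `k`, an element of `k((q))` (or of `k[[q]]`) which is algebraic over `k` is a
constant.

* `powerSeries_eq_C_of_isAlgebraic` : `z : k⟦X⟧` algebraic over `k` ⇒ `z = C c`;
* `laurent_mem_range_of_isAlgebraic` : `y : k⸨X⸩` algebraic over `k` ⇒ `y = algebraMap c`.
-/

set_option autoImplicit false

open Polynomial

namespace Fermat.Agent.S18x.E.H29

variable {k : Type*} [Field k]

/-- A power series without constant term which is algebraic over the coefficient field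
vanishes. -/
theorem powerSeries_eq_zero_of_isAlgebraic (z : PowerSeries k)
    (hz0 : PowerSeries.constantCoeff z = 0) (hz : IsAlgebraic k z) : z = 0 := by
  by_contra hne
  obtain ⟨P, hP0, hP⟩ := hz
  obtain ⟨Q, hQ, hnd⟩ := Polynomial.exists_eq_pow_rootMultiplicity_mul_and_not_dvd P hP0 0
  have hQ0 : Q.coeff 0 ≠ 0 := by
    intro h0
    apply hnd
    rw [map_zero, sub_zero]
    exact Polynomial.X_dvd_iff.mpr h0
  rw [hQ, map_zero, sub_zero, map_mul, map_pow, aeval_X] at hP
  have hQz : aeval z Q = 0 := (mul_eq_zero.mp hP).resolve_left (pow_ne_zero _ hne)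
  apply hQ0
  have h1 := congrArg (PowerSeries.constantCoeff (R := k)) hQz
  rw [aeval_def, Polynomial.hom_eval₂, hz0, map_zero] at h1
  have h2 : (PowerSeries.constantCoeff (R := k)).comp (algebraMap k (PowerSeries k))
      = RingHom.id k := by
    ext a
    simp
  rw [h2, Polynomial.eval₂_id, ← Polynomial.coeff_zero_eq_eval_zero] at h1
  exact h1

/-- A power series which is algebraic over the coefficient field is a constant. -/
theorem powerSeries_eq_C_of_isAlgebraic (z : PowerSeries k) (hz : IsAlgebraic k z) :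
    z = PowerSeries.C (PowerSeries.constantCoeff z) := by
  have h1 : IsAlgebraic k (z - PowerSeries.C (PowerSeries.constantCoeff z)) := by
    refine hz.sub ?_
    have : PowerSeries.C (PowerSeries.constantCoeff z)
        = algebraMap k (PowerSeries k) (PowerSeries.constantCoeff z) := by simp
    rw [this]
    exact isAlgebraic_algebraMap _
  have h2 := powerSeries_eq_zero_of_isAlgebraic _ (by simp) h1
  exact sub_eq_zero.mp h2

/-- Transfer of algebraicity from `k((q))` to `k[[q]]`. -/
theorem isAlgebraic_of_ofPowerSeries (z : PowerSeries k)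
    (hz : IsAlgebraic k (HahnSeries.ofPowerSeries ℤ k z)) : IsAlgebraic k z := by
  obtain ⟨P, hP0, hP⟩ := hz
  refine ⟨P, hP0, ?_⟩
  apply HahnSeries.ofPowerSeries_injective (Γ := ℤ) (R := k)
  rw [map_zero, aeval_def, Polynomial.hom_eval₂]
  rw [aeval_def] at hP
  exact hP

/-- **`k` is algebraically closed in `k((q))`.** -/
theorem laurent_mem_range_of_isAlgebraic (y : LaurentSeries k) (hy : IsAlgebraic k y) :
    ∃ c : k, algebraMap k (LaurentSeries k) c = y := by
  rcases eq_or_ne y 0 with rfl | hy0
  · exact ⟨0, map_zero _⟩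
  -- elements of positive order are not algebraic
  have key : ∀ z : LaurentSeries k, z ≠ 0 → IsAlgebraic k z → ¬ 0 < z.order := by
    intro z hz0 hz hpos
    obtain ⟨n, hn⟩ : ∃ n : ℕ, (n : ℤ) = z.order := ⟨z.order.toNat, Int.toNat_of_nonneg hpos.le⟩
    have hn1 : 1 ≤ n := by omega
    have hrep := LaurentSeries.X_order_mul_powerSeriesPart hn
    have halg : IsAlgebraic k (PowerSeries.X ^ n * z.powerSeriesPart : PowerSeries k) := by
      apply isAlgebraic_of_ofPowerSeries
      rw [hrep]
      exact hz
    have h0 := powerSeries_eq_zero_of_isAlgebraic _ (by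
      rw [map_mul, map_pow, PowerSeries.constantCoeff_X, zero_pow (by omega), zero_mul]) halg
    rw [h0, map_zero] at hrep
    exact hz0 hrep.symm
  have hord : y.order + y⁻¹.order = 0 := by
    rw [← HahnSeries.order_mul hy0 (inv_ne_zero hy0), mul_inv_cancel₀ hy0, HahnSeries.order_one]
  have h1 : ¬ 0 < y⁻¹.order := key y⁻¹ (inv_ne_zero hy0) hy.inv
  have hnn : 0 ≤ y.order := by omega
  obtain ⟨n, hn⟩ : ∃ n : ℕ, (n : ℤ) = y.order := ⟨y.order.toNat, Int.toNat_of_nonneg hnn⟩
  have hrep := LaurentSeries.X_order_mul_powerSeriesPart hn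
  have halg : IsAlgebraic k (PowerSeries.X ^ n * y.powerSeriesPart : PowerSeries k) := by
    apply isAlgebraic_of_ofPowerSeries
    rw [hrep]
    exact hy
  have hC := powerSeries_eq_C_of_isAlgebraic _ halg
  refine ⟨PowerSeries.constantCoeff (PowerSeries.X ^ n * y.powerSeriesPart : PowerSeries k), ?_⟩
  calc algebraMap k (LaurentSeries k)
        (PowerSeries.constantCoeff (PowerSeries.X ^ n * y.powerSeriesPart : PowerSeries k))
      = HahnSeries.ofPowerSeries ℤ k (PowerSeries.C
          (PowerSeries.constantCoeff (PowerSeries.X ^ n * y.powerSeriesPart : PowerSeries k))) :=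
        rfl
    _ = HahnSeries.ofPowerSeries ℤ k (PowerSeries.X ^ n * y.powerSeriesPart) := by rw [← hC]
    _ = y := hrep

end Fermat.Agent.S18x.E.H29
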