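import Fermat.Agent.S18x.E.H29_Const
import Fermat.Agent.S18x.E.H29_LaurentAlg
import Fermat.Agent.S18x.Asm.Defs
import Fermat.Agent.S28.Mod.H24_ModFinal
import Fermat.Agent.S28.Deg.H9_PrimeAsm
import Fermat.Agent.S28.Mod.H14_PolyJ

/-!
# S18, package [E], leaf (CONST) (helper29): `StConst`, hypothesis-free

For EVERY field `k` (any characteristic) and every level `N`:
* `isIntegral_qExpand_jq` : `j(q^d)` is integral over `k(j)` (modular equations of prime level,
  S28 MOD-C, composed along a factorisation of `d`);
* `finDimC` : `k(j_d : d ∣ N)` is finite over `k(j)` (`= S28.Mod.H23.FinDimC k N`);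
* `transcendental_jbFull` : `j` is transcendental over `k`;
* `const_of_forall_ord_eq_zero` : an element of `k(j_d : d ∣ N)` without zeros and poles is in `k`;
* `stConst A N : Asm.StConst A N`, VERBATIM the interface of `S18x/Asm/Defs.lean`.
-/

set_option autoImplicit false
set_option linter.style.haveILetI false

open Polynomial IntermediateField ModularCurve AlgebraicCurve

noncomputable section

namespace Fermat.Agent.S18x.E.H29

open Fermat.Agent.S28 Fermat.Agent.S28.Deg.H8 Fermat.Agent.S28.Deg.H9

/-- Integrality over a field is inherited along a monic relation with coefficients that are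
integer polynomials in an integral element. -/
theorem isIntegral_of_ev2 {E L : Type*} [Field E] [Field L] [Algebra E L] (Φ : (ℤ[X])[X])
    (hm : Φ.Monic) (x y : L) (hx : IsIntegral E x) (h : ev2 Φ y x = 0) : IsIntegral E y := by
  set A := integralClosure E L with hA
  set x' : A := ⟨x, hx⟩ with hx'
  have hy : IsIntegral A y := by
    refine ⟨Φ.map (Polynomial.eval₂RingHom (Int.castRingHom A) x'), hm.map _, ?_⟩
    rw [Polynomial.eval₂_map]
    have hcomp : (algebraMap A L).comp (Polynomial.eval₂RingHom (Int.castRingHom A) x')
        = Polynomial.eval₂RingHom (Int.castRingHom L) x := by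
      apply Polynomial.ringHom_ext
      · intro n
        simp
      · simp [hx']
    rw [hcomp]
    exact h
  exact isIntegral_trans y hy

variable (k : Type) [Field k]

/-- `j(q^d)` is integral over `k(j)`, for every field `k` and every `d ≥ 1`. -/
theorem isIntegral_qExpand_jq :
    ∀ (d : ℕ) [NeZero d], IsIntegral (jbField k) (qExpand k d (jqModC k)) := by
  intro d
  induction d using Nat.strong_induction_on with
  | _ d ih =>
    intro hd
    rcases eq_or_ne d 1 with rfl | hd1
    · rw [qExpand_one_apply]
      exact isIntegral_algebraMap (R := jbField k) (A := LaurentSeries k)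
        (x := ⟨jqModC k, mem_adjoin_simple_self k _⟩)
    · have hd0 : d ≠ 0 := NeZero.ne d
      have hp : (d.minFac).Prime := Nat.minFac_prime hd1
      set p := d.minFac with hpdef
      set d' := d / p with hd'def
      have hdvd : p ∣ d := Nat.minFac_dvd d
      have hfac : d = d' * p := (Nat.div_mul_cancel hdvd).symm
      have hd'0 : d' ≠ 0 := by
        intro h0
        rw [h0, zero_mul] at hfac
        exact hd0 hfac
      have hd'lt : d' < d := Nat.div_lt_self (Nat.pos_of_ne_zero hd0) hp.one_lt
      haveI : NeZero p := ⟨hp.ne_zero⟩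
      haveI : NeZero d' := ⟨hd'0⟩
      haveI : NeZero (d' * p) := ⟨by rw [← hfac]; exact hd0⟩
      obtain ⟨Φ, hm, -, h1, -⟩ := (Mod.H24.h24_stModC p hp).to k
      have h2 := congrArg (qExpand k d') h1
      rw [ev2_hom, map_zero, qExpand_qExpand] at h2
      rw [qExpand_congr hfac]
      exact isIntegral_of_ev2 Φ hm _ _ (ih d' hd'lt) h2

/-- The set of generators `j(q^d)`, `d ∣ N`, is finite. -/
theorem finite_divisorExpansionsC (N : ℕ) [NeZero N] : (divisorExpansionsC k N).Finite := by
  classical
  set g : ℕ → LaurentSeries k := fun d =>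
    if h : d = 0 then 0 else (haveI : NeZero d := ⟨h⟩; qExpand k d (jqModC k)) with hg
  refine Set.Finite.subset ((N.divisors : Set ℕ).toFinite.image g) ?_
  rintro x ⟨d, hd, hdN, rfl⟩
  refine ⟨d, ?_, ?_⟩
  · simpa using ⟨hdN, NeZero.ne N⟩
  · simp only [hg, dif_neg (NeZero.ne d)]

/-- **FinDimC for every field**: `k(j_d : d ∣ N)` is finite over `k(j)`. -/
theorem finDimC (N : ℕ) [NeZero N] :
    FiniteDimensional (IntermediateField.adjoin k {Asm.jbFull k N})
      ↥(modularFunctionFieldFullC k N) := by
  have hle : jbField k ≤ IntermediateField.adjoin k (divisorExpansionsC k N) :=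
    jbField_le_full k N
  haveI : Finite (divisorExpansionsC k N) := (finite_divisorExpansionsC k N).to_subtype
  have hfin : FiniteDimensional (jbField k)
      (IntermediateField.adjoin (jbField k) (divisorExpansionsC k N)) :=
    IntermediateField.finiteDimensional_adjoin (by
      rintro x ⟨d, hd, -, rfl⟩
      exact isIntegral_qExpand_jq k d)
  rw [← extendScalars_adjoin hle] at hfin
  have hpos : 0 < Module.finrank (jbField k) (extendScalars hle) := Module.finrank_pos
  have h1 : Asm.degC k N = Module.finrank (jbField k) (extendScalars hle) := by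
    rw [degC_eq_relfinrank]
    exact relfinrank_eq_finrank_of_le (jbField_le_full k N)
  have h2 : 0 < Module.finrank (IntermediateField.adjoin k {Asm.jbFull k N})
      ↥(modularFunctionFieldFullC k N) := by
    have : Asm.degC k N = Module.finrank (IntermediateField.adjoin k {Asm.jbFull k N})
      ↥(modularFunctionFieldFullC k N) := rfl
    rw [← this, h1]
    exact hpos
  exact Module.finite_of_finrank_pos h2

/-- `j` is transcendental over `k`. -/
theorem transcendental_jbFull (N : ℕ) [NeZero N] : Transcendental k (Asm.jbFull k N) := by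
  rintro ⟨P, hP0, hP⟩
  apply hP0
  apply Mod.PolyJ.eq_zero_of_aeval_jqModC_eq_zero
  have h := congrArg (algebraMap ↥(modularFunctionFieldFullC k N) (LaurentSeries k)) hP
  rw [map_zero, ← Polynomial.aeval_algebraMap_apply] at h
  exact h

/-- **(C3), general field**: an element of `k(j_d : d ∣ N)` without zeros and poles is a
constant. Any field `k`, any characteristic. -/
theorem const_of_forall_ord_eq_zero (N : ℕ) [NeZero N] (g : modularFunctionFieldFullC k N)
    (hg : ∀ Q : Place k (modularFunctionFieldFullC k N), Q.ord g = 0) :
    ∃ c : k, algebraMap k (modularFunctionFieldFullC k N) c = g := by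
  haveI := finDimC k N
  have halg : IsAlgebraic k g :=
    isAlgebraic_of_forall_ord_nonneg (Asm.jbFull k N) (transcendental_jbFull k N) g
      fun Q => (hg Q).ge
  have halg' : IsAlgebraic k (g : LaurentSeries k) :=
    halg.algebraMap (A := LaurentSeries k)
  obtain ⟨c, hc⟩ := laurent_mem_range_of_isAlgebraic _ halg'
  exact ⟨c, Subtype.ext hc⟩

/-- An element of `k(j_d : d ∣ N)` without poles is a constant. -/
theorem const_of_forall_ord_nonneg (N : ℕ) [NeZero N] (g : modularFunctionFieldFullC k N)
    (hg : ∀ Q : Place k (modularFunctionFieldFullC k N), 0 ≤ Q.ord g) :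
    ∃ c : k, algebraMap k (modularFunctionFieldFullC k N) c = g := by
  haveI := finDimC k N
  have halg : IsAlgebraic k g :=
    isAlgebraic_of_forall_ord_nonneg (Asm.jbFull k N) (transcendental_jbFull k N) g hg
  have halg' : IsAlgebraic k (g : LaurentSeries k) :=
    halg.algebraMap (A := LaurentSeries k)
  obtain ⟨c, hc⟩ := laurent_mem_range_of_isAlgebraic _ halg'
  exact ⟨c, Subtype.ext hc⟩

/-- **`StConst`, VERBATIM** (`S18x/Asm/Defs.lean`), hypothesis-free. -/
theorem stConst (A : ValuationSubring (AlgebraicClosure ℚ)) (N : ℕ) [NeZero N] :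
    Fermat.Agent.S18x.Asm.StConst A N :=
  fun g _ hg => const_of_forall_ord_eq_zero (IsLocalRing.ResidueField A) N g hg

end Fermat.Agent.S18x.E.H29
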