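import Fermat.Agent.S18x.Asm.Defs
import Fermat.Agent.S24.H25_Inputs

/-!
# S18, leaf (DIV) (helper12): every non-zero modular function has a divisor

* `h12_exists_divisor` : in a function field of one variable `F` over a field `K` of
  characteristic zero (`F` finite over `K(x)`, `x` transcendental), every non-zero `f` has a
  divisor: the places where `f` has non-zero order form a finite set (zeros of `f` and of `1/f`,
  `Alg.exists_zeros` of the S24 library);
* `h12_hasPrincipalDivisors` : the prelude class `HasPrincipalDivisors` for such an `F`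
  (the degree of a principal divisor is zero: `Alg.degree_principal`);
* `h12_embQbar` : an embedding of the algebraic numbers in the complex numbers;
* `h12_hasPrincipalDivisors_bar N` : `HasPrincipalDivisors ℚ̄ (modularFunctionFieldBar N)`;
* `stDiv N : Asm.StDiv N`.
-/

set_option autoImplicit false
set_option synthInstance.maxHeartbeats 400000
set_option maxHeartbeats 1000000

open AlgebraicCurve IntermediateField ModularCurve

noncomputable section

namespace Fermat.Agent.S18x.E.H12

section generic

variable {K F : Type*} [Field K] [CharZero K] [Field F] [Algebra K F]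

/-- Every non-zero element of a function field of one variable has a divisor. -/
theorem h12_exists_divisor (x : F) (hx : Transcendental K x) [FiniteDimensional K⟮x⟯ F]
    (f : F) (_hf : f ≠ 0) :
    ∃ D : Divisor K F, ∀ v : Place K F, D v = v.ord f := by
  classical
  by_cases hfa : IsAlgebraic K f
  · exact ⟨0, fun v => by
      rw [Fermat.Agent.S24.Alg.ord_eq_zero_of_isAlgebraic v hfa]; rfl⟩
  · have hft : Transcendental K f := hfa
    have hfi : Transcendental K f⁻¹ := fun h => hfa (by simpa using h.inv)
    have h1 : FiniteDimensional K⟮f⟯ F :=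
      Fermat.Agent.S24.Alg.finiteDimensional_adjoin_of_transcendental hx hft
    have h2 : FiniteDimensional K⟮f⁻¹⟯ F :=
      Fermat.Agent.S24.Alg.finiteDimensional_adjoin_of_transcendental hx hfi
    obtain ⟨Z, hZ, -⟩ := Fermat.Agent.S24.Alg.exists_zeros f hft
    obtain ⟨P, hP, -⟩ := Fermat.Agent.S24.Alg.exists_zeros f⁻¹ hfi
    refine ⟨Finsupp.onFinset (Z ∪ P) (fun v => v.ord f) (fun v hv => ?_), fun v => ?_⟩
    · rw [Finset.mem_union, hZ, hP, v.ord_inv]
      rcases lt_or_gt_of_ne hv with h | h
      · exact Or.inr (by omega)
      · exact Or.inl h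
    · rw [Finsupp.onFinset_apply]

/-- The prelude class `HasPrincipalDivisors` for a function field of one variable. -/
theorem h12_hasPrincipalDivisors (x : F) (hx : Transcendental K x) [FiniteDimensional K⟮x⟯ F] :
    HasPrincipalDivisors K F :=
  ⟨fun f hf => by
    obtain ⟨D, hD⟩ := h12_exists_divisor x hx f hf
    exact ⟨D, hD, Fermat.Agent.S24.Alg.degree_principal x hx f hf D hD⟩⟩

end generic

/-- An embedding of the algebraic numbers into the complex numbers. -/
def h12_embQbar : AlgebraicClosure ℚ →+* ℂ :=
  haveI : Algebra.IsAlgebraic ℚ (AlgebraicClosure ℚ) := AlgebraicClosure.isAlgebraic ℚ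
  (IsAlgClosed.lift (R := ℚ) (S := AlgebraicClosure ℚ) (M := ℂ)).toRingHom

/-- The function field of `X₀(N)` over `ℚ̄` has principal divisors (of degree zero). -/
theorem h12_hasPrincipalDivisors_bar (N : ℕ) [NeZero N] :
    HasPrincipalDivisors (AlgebraicClosure ℚ) (modularFunctionFieldBar N) := by
  have := Fermat.Agent.S24.Final.finiteDimensional_jF (K := AlgebraicClosure ℚ) h12_embQbar N
  exact h12_hasPrincipalDivisors (Fermat.Agent.S24.Final.jF (AlgebraicClosure ℚ) N)
    (Fermat.Agent.S24.Final.transcendental_jF (AlgebraicClosure ℚ) N)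

/-- **(DIV)**: every non-zero modular function has a divisor. -/
theorem stDiv (N : ℕ) [NeZero N] : Fermat.Agent.S18x.Asm.StDiv N := by
  intro f hf
  obtain ⟨D, hD, -⟩ := (h12_hasPrincipalDivisors_bar N).exists_divisor f hf
  exact ⟨D, hD⟩

end Fermat.Agent.S18x.E.H12

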