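import Fermat.Agent.S18x.E.H12_Lift
import Fermat.Agent.S18x.Asm.Defs

/-!
# S18, package [E], leaf (LIFT) (helper12): `Asm.StLift A N` verbatim, hypothesis-free
-/

set_option autoImplicit false
set_option synthInstance.maxHeartbeats 400000
set_option maxHeartbeats 1000000

open HahnSeries IntermediateField AlgebraicCurve ModularCurve

namespace Fermat.Agent.S18x.E.H12

/-- **[LIFT]** (`Asm.StLift`, verbatim): every element of the characteristic `ℓ` function field is
the reduction of an integral `q`-series of a modular function. -/
theorem stLift (A : ValuationSubring (AlgebraicClosure ℚ)) (N : ℕ) [NeZero N] :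
    Asm.StLift A N := by
  intro g hg _
  exact h12_lift (A := A) (N := N) (IsLocalRing.residue A) IsLocalRing.residue_surjective
    (fun a ha => (IsLocalRing.residue_ne_zero_iff_isUnit a).mp ha) g hg

/-- **[LIFT b]** unit normalisation in the spelling of `Asm/Defs`: an integral `b` with non-zero
reduction can be replaced by an integral unit `b'` of `LaurentSeries A` with the same reduction,
whose inverse `b''` is integral as well. -/
theorem stLiftUnit (A : ValuationSubring (AlgebraicClosure ℚ)) (N : ℕ) [NeZero N]
    (b : LaurentSeries A) (hb : coeffMap A.subtype b ∈ modularFunctionFieldBar N)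
    (hne : coeffMap (IsLocalRing.residue A) b ≠ 0) :
    ∃ b' b'' : LaurentSeries A, coeffMap A.subtype b' ∈ modularFunctionFieldBar N ∧
      coeffMap A.subtype b'' ∈ modularFunctionFieldBar N ∧
      coeffMap (IsLocalRing.residue A) b' = coeffMap (IsLocalRing.residue A) b ∧ b' * b'' = 1 :=
  h12_lift_unit (A := A) (N := N) (IsLocalRing.residue A)
    (fun a ha => (IsLocalRing.residue_ne_zero_iff_isUnit a).mp ha) b hb hne

end Fermat.Agent.S18x.E.H12
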