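import Mathlib
import Fermat.Prelude.Def_AlgebraicCurve_DivisorClassGroup
import Fermat.Agent.S24.H21_PlaceOfVal

/-!
# S18, package [E], leaf (CONST), generic part (helper29)

Characteristic-free existence of poles in a function field of one variable `F / k`
(`t : F` transcendental over `k`, `F` finite over `k(t)`): every element `x : F` transcendental
over `k` has a pole, i.e. there is a place `v` of `F / k` with `v.ord x < 0`.

No separability, no fundamental identity, no hypothesis on the characteristic: a valuation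
subring `V` of `F` containing the algebraic closure of `k` in `F` and not containing `x` exists
(Mathlib); with `π = x⁻¹` and `n = [F : k(π)]` the `n!`-th power of the value of every `f ≠ 0` is
an integral power of the value of `π`, which defines an integer-valued valuation, hence a place
(`Fermat.Agent.S24.Orb.exists_place_of_valuation`).

Main statements:
* `exists_place_ord_neg`, `exists_place_ord_pos` : poles and zeros of transcendental elements;
* `mem_range_of_forall_ord_nonneg` (`k` algebraically closed) : no poles implies constant;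
* `mem_range_of_forall_ord_eq_zero` : no zeros and no poles implies constant.
-/

set_option autoImplicit false

open AlgebraicCurve IntermediateField Polynomial

namespace Fermat.Agent.S18x.E.H29

variable {k F : Type*} [Field k] [Field F] [Algebra k F]

/-! ### Exchange -/

theorem isAlgebraic_adjoin_of_transcendental {t : F} (ht : Transcendental k t)
    [FiniteDimensional k⟮t⟯ F] {y : F} (hy : Transcendental k y) :
    IsAlgebraic k⟮y⟯ t :=
  isAlgebraic_adjoin_iff.mpr (.adjoin_singleton ht hy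
    (isAlgebraic_adjoin_iff.mp (Algebra.IsAlgebraic.isAlgebraic y)))

/-- A function field of one variable is finite over `k(y)` for every transcendental `y`. -/
theorem finiteDimensional_adjoin_of_transcendental {t : F} (ht : Transcendental k t)
    [FiniteDimensional k⟮t⟯ F] {y : F} (hy : Transcendental k y) :
    FiniteDimensional k⟮y⟯ F :=
  let Fyx := restrictScalars k k⟮y⟯⟮t⟯
  let Fxy := restrictScalars k k⟮t⟯⟮y⟯
  let : Algebra k⟮y⟯ Fyx := k⟮y⟯⟮t⟯.algebra
  let : Module k⟮y⟯ Fyx := Algebra.toModule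
  let : SMul k⟮y⟯ Fyx := Algebra.toSMul
  let : Algebra k⟮t⟯ Fxy := k⟮t⟯⟮y⟯.algebra
  let : Module k⟮t⟯ Fxy := Algebra.toModule
  let : SMul k⟮t⟯ Fxy := Algebra.toSMul
  have : FiniteDimensional k⟮y⟯ Fyx :=
    adjoin.finiteDimensional
      (isAlgebraic_iff_isIntegral.mp (isAlgebraic_adjoin_of_transcendental ht hy))
  have : FiniteDimensional Fyx F := by
    unfold Fyx
    rw [adjoin_simple_comm]
    have : IsScalarTower k⟮t⟯ Fxy F := isScalarTower_mid' k⟮t⟯⟮y⟯
    exact .right k⟮t⟯ Fxy F
  have : IsScalarTower k⟮y⟯ Fyx F := isScalarTower_mid' k⟮y⟯⟮t⟯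
  .trans k⟮y⟯ Fyx F

theorem transcendental_inv {x : F} (hx : Transcendental k x) : Transcendental k x⁻¹ := by
  intro h
  apply hx
  have : x = (x⁻¹)⁻¹ := (inv_inv x).symm
  rw [this]
  exact h.inv

/-! ### A valuation subring over `k` not containing `x` -/

theorem exists_valuationSubring {x : F} (hx : Transcendental k x) :
    ∃ V : ValuationSubring F, (∀ a : k, algebraMap k F a ∈ V) ∧ x ∉ V := by
  have hxR : x ∉ (integralClosure k F).toSubring := by
    intro h
    exact hx (IsIntegral.isAlgebraic (show IsIntegral k x from h))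
  have : IsIntegrallyClosedIn (integralClosure k F).toSubring F :=
    inferInstanceAs (IsIntegrallyClosedIn (integralClosure k F) F)
  obtain ⟨V, hV, hxV⟩ := Subring.exists_le_valuationSubring_of_isIntegrallyClosedIn hxR
  exact ⟨V, fun a => hV ((integralClosure k F).algebraMap_mem a), hxV⟩

/-! ### Values of rational functions in `π` -/

section Val

variable {Γ : Type*} [LinearOrderedCommGroupWithZero Γ] (v : Valuation F Γ)
  (hk : ∀ a : k, a ≠ 0 → v (algebraMap k F a) = 1) {π : F} (hπ : v π < 1)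

include hk in
theorem val_algebraMap_le_one (a : k) : v (algebraMap k F a) ≤ 1 := by
  rcases eq_or_ne a 0 with rfl | ha
  · simp
  · exact (hk a ha).le

include hk hπ

theorem val_aeval_le_one (p : k[X]) : v (aeval π p) ≤ 1 := by
  rw [aeval_eq_sum_range]
  refine v.map_sum_le fun i _ => ?_
  rw [Algebra.smul_def, map_mul, map_pow]
  calc v (algebraMap k F (p.coeff i)) * v π ^ i ≤ 1 * 1 :=
        mul_le_mul' (val_algebraMap_le_one v hk _) (pow_le_one' hπ.le i)
    _ = 1 := one_mul 1

theorem val_aeval_eq_one {p : k[X]} (hp : p.coeff 0 ≠ 0) : v (aeval π p) = 1 := by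
  have h1 : aeval π p = aeval π p.divX * π + algebraMap k F (p.coeff 0) := by
    conv_lhs => rw [← Polynomial.divX_mul_X_add p]
    simp
  have h2 : v (aeval π p.divX * π) < v (algebraMap k F (p.coeff 0)) := by
    rw [hk _ hp, map_mul]
    calc v (aeval π p.divX) * v π ≤ 1 * v π :=
          mul_le_mul_left (val_aeval_le_one v hk hπ _) _
      _ = v π := one_mul _
      _ < 1 := hπ
  rw [h1, v.map_add_eq_of_lt_right h2, hk _ hp]

theorem val_aeval_eq_pow {p : k[X]} (hp : p ≠ 0) : ∃ m : ℕ, v (aeval π p) = v π ^ m := by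
  obtain ⟨q, hq, hnd⟩ := Polynomial.exists_eq_pow_rootMultiplicity_mul_and_not_dvd p hp 0
  refine ⟨p.rootMultiplicity 0, ?_⟩
  have hq0 : q.coeff 0 ≠ 0 := by
    intro h0
    apply hnd
    rw [map_zero, sub_zero]
    exact Polynomial.X_dvd_iff.mpr h0
  conv_lhs => rw [hq]
  rw [map_mul, map_pow, map_sub, aeval_X, map_zero, map_zero, sub_zero, map_mul, map_pow,
    val_aeval_eq_one v hk hπ hq0, mul_one]

theorem val_adjoin_eq_zpow (hπ0 : π ≠ 0) {a : F} (ha : a ∈ k⟮π⟯) (ha0 : a ≠ 0) :
    ∃ m : ℤ, v a = v π ^ m := by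
  obtain ⟨r, s, rfl⟩ := IntermediateField.mem_adjoin_simple_iff k a |>.mp ha
  have hr : aeval π r ≠ 0 := fun h => ha0 (by rw [h, zero_div])
  have hs : aeval π s ≠ 0 := fun h => ha0 (by rw [h, div_zero])
  have hr0 : r ≠ 0 := fun h => hr (by rw [h, map_zero])
  have hs0 : s ≠ 0 := fun h => hs (by rw [h, map_zero])
  obtain ⟨m, hm⟩ := val_aeval_eq_pow v hk hπ hr0
  obtain ⟨n, hn⟩ := val_aeval_eq_pow v hk hπ hs0
  refine ⟨(m : ℤ) - n, ?_⟩
  have hvπ0 : v π ≠ 0 := (v.ne_zero_iff).mpr hπ0
  rw [map_div₀, hm, hn, zpow_sub₀ hvπ0, zpow_natCast, zpow_natCast]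

omit hk hπ in
/-- Two terms of a vanishing sum have the same value. -/
theorem exists_pair_val_eq {ι : Type*} [Fintype ι] [DecidableEq ι] (T : ι → F)
    (hsum : ∑ i, T i = 0) (i₀ : ι) (hi₀ : T i₀ ≠ 0) :
    ∃ i j : ι, i ≠ j ∧ T i ≠ 0 ∧ T j ≠ 0 ∧ v (T i) = v (T j) := by
  classical
  by_contra hno
  push Not at hno
  obtain ⟨i₁, hi₁S, hmax⟩ := Finset.exists_max_image (Finset.univ.filter fun i => T i ≠ 0)
    (fun i => v (T i)) ⟨i₀, by simp [hi₀]⟩
  have hi₁ : T i₁ ≠ 0 := by simpa using hi₁S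
  have hTi₁ : v (T i₁) ≠ 0 := (v.ne_zero_iff).mpr hi₁
  have hlt : ∀ j ∈ Finset.univ.erase i₁, v (T j) < v (T i₁) := by
    intro j hj
    have hji : j ≠ i₁ := Finset.ne_of_mem_erase hj
    by_cases hcj : T j = 0
    · rw [hcj, map_zero]
      exact zero_lt_iff.mpr hTi₁
    · have hle := hmax j (by simp [hcj])
      exact lt_of_le_of_ne hle (hno j i₁ hji hcj hi₁)
  have hsum' : ∑ i, T i = T i₁ + ∑ j ∈ Finset.univ.erase i₁, T j :=
    (Finset.add_sum_erase _ _ (Finset.mem_univ _)).symm
  have h := v.map_add_eq_of_lt_left (v.map_sum_lt hTi₁ hlt)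
  rw [← hsum', hsum, map_zero] at h
  exact hTi₁ h.symm

theorem exists_pow_val_eq_zpow (hπ0 : π ≠ 0) [FiniteDimensional k⟮π⟯ F] {f : F} (hf : f ≠ 0) :
    ∃ d : ℕ, 0 < d ∧ d ≤ Module.finrank k⟮π⟯ F ∧ ∃ m : ℤ, v f ^ d = v π ^ m := by
  classical
  set n := Module.finrank k⟮π⟯ F with hn
  have hdep : ¬ LinearIndependent k⟮π⟯ (fun i : Fin (n + 1) => f ^ (i : ℕ)) := by
    intro hli
    have := hli.fintype_card_le_finrank
    rw [Fintype.card_fin] at this
    omega
  rw [Fintype.not_linearIndependent_iff] at hdep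
  obtain ⟨c, hsum, i₀, hi₀⟩ := hdep
  have hT0 : ∀ i : Fin (n + 1), c i • f ^ (i : ℕ) ≠ 0 ↔ c i ≠ 0 := by
    intro i
    rw [Algebra.smul_def, IntermediateField.algebraMap_apply]
    simp [hf]
  obtain ⟨i, j, hij, hi, hj, hv⟩ := exists_pair_val_eq v (fun i => c i • f ^ (i : ℕ)) hsum i₀
    ((hT0 i₀).mpr hi₀)
  have hvf : v f ≠ 0 := (v.ne_zero_iff).mpr hf
  have hvπ : v π ≠ 0 := (v.ne_zero_iff).mpr hπ0
  -- the symmetric core
  have key : ∀ i j : Fin (n + 1), (i : ℕ) < j → c i ≠ 0 → c j ≠ 0 →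
      v (c i • f ^ (i : ℕ)) = v (c j • f ^ (j : ℕ)) →
      ∃ d : ℕ, 0 < d ∧ d ≤ n ∧ ∃ m : ℤ, v f ^ d = v π ^ m := by
    intro i j hlt hi hj hv
    obtain ⟨a, ha⟩ := val_adjoin_eq_zpow v hk hπ hπ0 (c i).2 (by simpa using hi)
    obtain ⟨b, hb⟩ := val_adjoin_eq_zpow v hk hπ hπ0 (c j).2 (by simpa using hj)
    refine ⟨(j : ℕ) - i, by omega, by omega, a - b, ?_⟩
    rw [Algebra.smul_def, Algebra.smul_def, IntermediateField.algebraMap_apply,
      IntermediateField.algebraMap_apply, map_mul, map_mul, map_pow, map_pow, ha, hb] at hv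
    have hj' : (j : ℕ) = ((j : ℕ) - i) + i := by omega
    rw [hj', pow_add, ← mul_assoc] at hv
    have hv' := mul_right_cancel₀ (pow_ne_zero _ hvf) hv
    rw [zpow_sub₀ hvπ, hv']
    field_simp
  rcases lt_or_gt_of_ne (fun h => hij (Fin.ext h) : (i : ℕ) ≠ j) with h | h
  · exact key i j h ((hT0 i).mp hi) ((hT0 j).mp hj) hv
  · exact key j i h ((hT0 j).mp hj) ((hT0 i).mp hi) hv.symm

theorem exists_factorial_val_eq_zpow (hπ0 : π ≠ 0) [FiniteDimensional k⟮π⟯ F] {f : F}
    (hf : f ≠ 0) :
    ∃ m : ℤ, v f ^ (Module.finrank k⟮π⟯ F).factorial = v π ^ m := by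
  obtain ⟨d, hd0, hdn, m, hm⟩ := exists_pow_val_eq_zpow v hk hπ hπ0 hf
  obtain ⟨e, he⟩ := Nat.dvd_factorial hd0 hdn
  refine ⟨m * e, ?_⟩
  rw [he, pow_mul, hm, zpow_mul, zpow_natCast]

end Val

/-! ### Poles and zeros of transcendental elements -/

/-- **(C1)** In a function field of one variable (any characteristic, any constant field) every
element transcendental over the constants has a pole. -/
theorem exists_place_ord_neg (t : F) (ht : Transcendental k t) [FiniteDimensional k⟮t⟯ F]
    (x : F) (hx : Transcendental k x) : ∃ P : Place k F, P.ord x < 0 := by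
  classical
  have hx0 : x ≠ 0 := fun h => hx (h ▸ isAlgebraic_zero)
  set π := x⁻¹ with hπdef
  have hπ0 : π ≠ 0 := inv_ne_zero hx0
  have : FiniteDimensional k⟮π⟯ F :=
    finiteDimensional_adjoin_of_transcendental ht (transcendental_inv hx)
  obtain ⟨V, hkV, hxV⟩ := exists_valuationSubring hx
  set v := V.valuation with hv
  have hk : ∀ a : k, a ≠ 0 → v (algebraMap k F a) = 1 := by
    intro a ha
    have ha' : algebraMap k F a ≠ 0 := by simpa using ha
    apply le_antisymm
    · exact (V.valuation_le_one_iff _).mpr (hkV a)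
    · have h1 : v (algebraMap k F a⁻¹) ≤ 1 := (V.valuation_le_one_iff _).mpr (hkV a⁻¹)
      rw [map_inv₀, map_inv₀] at h1
      exact (inv_le_one₀ (zero_lt_iff.mpr ((v.ne_zero_iff).mpr ha'))).mp h1
  have hπ : v π < 1 := by
    have h1 : ¬ v x ≤ 1 := fun h => hxV ((V.valuation_le_one_iff _).mp h)
    rw [hπdef, map_inv₀]
    exact inv_lt_one_of_one_lt₀ (not_le.mp h1)
  set N := (Module.finrank k⟮π⟯ F).factorial with hN
  have hNpos : 0 < N := Nat.factorial_pos _
  have hC : ∀ f : F, f ≠ 0 → ∃ m : ℤ, v f ^ N = v π ^ m := fun f hf =>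
    exists_factorial_val_eq_zpow v hk hπ hπ0 hf
  choose! w hw using hC
  have hvπpos : 0 < v π := zero_lt_iff.mpr ((v.ne_zero_iff).mpr hπ0)
  have huniq : ∀ {f : F} (_ : f ≠ 0) {m : ℤ}, v f ^ N = v π ^ m → w f = m := by
    intro f hf m hm
    exact zpow_right_injective₀ hvπpos hπ.ne ((hw f hf).symm.trans hm)
  have hmul : ∀ f g : F, f ≠ 0 → g ≠ 0 → w (f * g) = w f + w g := by
    intro f g hf hg
    apply huniq (mul_ne_zero hf hg)
    rw [map_mul, mul_pow, hw f hf, hw g hg, zpow_add₀ hvπpos.ne']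
  have hmono : ∀ f g : F, f ≠ 0 → g ≠ 0 → v g ≤ v f → w f ≤ w g := by
    intro f g hf hg h
    have h2 : v g ^ N ≤ v f ^ N := pow_le_pow_left' h N
    rw [hw _ hg, hw _ hf] at h2
    exact (zpow_le_zpow_iff_right_of_lt_one₀ hvπpos hπ).mp h2
  have hadd : ∀ f g : F, f ≠ 0 → g ≠ 0 → f + g ≠ 0 → min (w f) (w g) ≤ w (f + g) := by
    intro f g hf hg hfg
    have h1 : v (f + g) ≤ max (v f) (v g) := v.map_add f g
    rcases le_max_iff.mp h1 with h | h
    · exact (min_le_left _ _).trans (hmono f (f + g) hf hfg h)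
    · exact (min_le_right _ _).trans (hmono g (f + g) hg hfg h)
  have hK : ∀ a : k, algebraMap k F a ≠ 0 → 0 ≤ w (algebraMap k F a) := by
    intro a ha
    have ha' : a ≠ 0 := fun h => ha (by rw [h, map_zero])
    rw [huniq ha (m := 0) (by rw [hk a ha', one_pow, zpow_zero])]
  have hwx : w x = -(N : ℤ) := by
    apply huniq hx0
    rw [zpow_neg, zpow_natCast, hπdef, map_inv₀, inv_pow, inv_inv]
  have hnt : ∃ t : F, t ≠ 0 ∧ w t ≠ 0 := ⟨x, hx0, by rw [hwx]; omega⟩
  obtain ⟨P, m, hm, hP, -⟩ :=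
    Fermat.Agent.S24.Orb.exists_place_of_valuation w hmul hadd hK hnt
  refine ⟨P, ?_⟩
  have h1 := hP x hx0
  rw [hwx] at h1
  by_contra hcon
  push Not at hcon
  have h2 : 0 ≤ (m : ℤ) * P.ord x := mul_nonneg (by positivity) hcon
  omega

/-- Every element transcendental over the constants has a zero. -/
theorem exists_place_ord_pos (t : F) (ht : Transcendental k t) [FiniteDimensional k⟮t⟯ F]
    (x : F) (hx : Transcendental k x) : ∃ P : Place k F, 0 < P.ord x := by
  obtain ⟨P, hP⟩ := exists_place_ord_neg t ht x⁻¹ (transcendental_inv hx)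
  rw [P.ord_inv] at hP
  exact ⟨P, by omega⟩

/-- An element without poles is algebraic over the constants. -/
theorem isAlgebraic_of_forall_ord_nonneg (t : F) (ht : Transcendental k t)
    [FiniteDimensional k⟮t⟯ F] (u : F) (hu : ∀ P : Place k F, 0 ≤ P.ord u) :
    IsAlgebraic k u := by
  by_contra hut
  obtain ⟨P, hP⟩ := exists_place_ord_neg t ht u hut
  have := hu P
  omega

/-- An element without zeros is algebraic over the constants. -/
theorem isAlgebraic_of_forall_ord_nonpos (t : F) (ht : Transcendental k t)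
    [FiniteDimensional k⟮t⟯ F] (u : F) (hu : ∀ P : Place k F, P.ord u ≤ 0) :
    IsAlgebraic k u := by
  by_contra hut
  obtain ⟨P, hP⟩ := exists_place_ord_pos t ht u hut
  have := hu P
  omega

/-- **(C2)** `L(0) = k` in any characteristic: over an algebraically closed constant field an
element without poles is constant. -/
theorem mem_range_of_forall_ord_nonneg [IsAlgClosed k] (t : F) (ht : Transcendental k t)
    [FiniteDimensional k⟮t⟯ F] (u : F) (hu : ∀ P : Place k F, 0 ≤ P.ord u) :
    u ∈ Set.range (algebraMap k F) := by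
  have hint : IsIntegral k u := (isAlgebraic_of_forall_ord_nonneg t ht u hu).isIntegral
  exact minpoly.mem_range_of_degree_eq_one k u
    (IsAlgClosed.degree_eq_one_of_irreducible k (minpoly.irreducible hint))

/-- Over an algebraically closed constant field an element without zeros and poles is
constant. -/
theorem mem_range_of_forall_ord_eq_zero [IsAlgClosed k] (t : F) (ht : Transcendental k t)
    [FiniteDimensional k⟮t⟯ F] (u : F) (hu : ∀ P : Place k F, P.ord u = 0) :
    u ∈ Set.range (algebraMap k F) :=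
  mem_range_of_forall_ord_nonneg t ht u fun P => (hu P).ge

end Fermat.Agent.S18x.E.H29
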